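import Mathlib

set_option autoImplicit false

open UpperHalfPlane Complex Filter Topology Function
open scoped Real MatrixGroups ModularForm Manifold

namespace Fermat.Agent.S20FM_helper57

local notation "𝕢" => Function.Periodic.qParam

/-- The `N`-th root of unity `exp (2 π i / N)`. -/
noncomputable def zeta (N : ℕ) : ℂ := Complex.exp (2 * π * Complex.I / N)

theorem zeta_isPrimitiveRoot {N : ℕ} (hN : N ≠ 0) : IsPrimitiveRoot (zeta N) N :=
  Complex.isPrimitiveRoot_exp N hN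

theorem zeta_ne_zero (N : ℕ) : zeta N ≠ 0 := Complex.exp_ne_zero _

theorem zeta_pow_self {N : ℕ} (hN : N ≠ 0) : zeta N ^ N = 1 := (zeta_isPrimitiveRoot hN).pow_eq_one

theorem norm_zeta (N : ℕ) : ‖zeta N‖ = 1 := by
  unfold zeta
  rw [Complex.norm_exp]
  simp

/-- The local parameter `q_N = exp (2 π i τ / N)` on the upper half plane. -/
noncomputable def qN (N : ℕ) (τ : ℍ) : ℂ := 𝕢 (N : ℝ) (τ : ℂ)

theorem qN_ne_zero (N : ℕ) (τ : ℍ) : qN N τ ≠ 0 := Function.Periodic.qParam_ne_zero _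

theorem qN_vadd_nat (N : ℕ) (t : ℕ) (τ : ℍ) : qN N ((t : ℝ) +ᵥ τ) = zeta N ^ t * qN N τ := by
  unfold qN zeta Function.Periodic.qParam
  rw [coe_vadd, ← Complex.exp_nat_mul, ← Complex.exp_add]
  congr 1
  push_cast
  ring_nf

theorem qN_vadd_one (N : ℕ) (τ : ℍ) : qN N ((1 : ℝ) +ᵥ τ) = zeta N * qN N τ := by
  simpa using qN_vadd_nat N 1 τ

theorem norm_qN (N : ℕ) (τ : ℍ) : ‖qN N τ‖ = Real.exp (-2 * π * τ.im / N) := by
  unfold qN
  rw [Function.Periodic.norm_qParam]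
  rfl

theorem norm_qN_lt_one {N : ℕ} (hN : N ≠ 0) (τ : ℍ) : ‖qN N τ‖ < 1 :=
  Function.Periodic.norm_qParam_lt_one (by exact_mod_cast Nat.pos_of_ne_zero hN) τ.im_pos

theorem qN_pow_self {N : ℕ} (hN : N ≠ 0) (τ : ℍ) : qN N τ ^ N = 𝕢 1 (τ : ℂ) := by
  unfold qN Function.Periodic.qParam
  rw [← Complex.exp_nat_mul]
  congr 1
  have : (N : ℂ) ≠ 0 := by exact_mod_cast hN
  push_cast
  field_simp

/-- The `n`-th Fourier extraction of an `N`-periodic function, a `1`-periodic function. -/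
noncomputable def fourier (N n : ℕ) (f : ℍ → ℂ) (τ : ℍ) : ℂ :=
  (qN N τ)⁻¹ ^ n *
    ((N : ℂ)⁻¹ * ∑ t ∈ Finset.range N, (zeta N)⁻¹ ^ (n * t) * f ((t : ℝ) +ᵥ τ))

theorem sum_zeta_inv_pow {N : ℕ} (hN : N ≠ 0) {t : ℕ} (ht : t < N) :
    ∑ n ∈ Finset.range N, (zeta N)⁻¹ ^ (n * t) = if t = 0 then (N : ℂ) else 0 := by
  split_ifs with h0
  · subst h0
    simp
  · have hx : (zeta N)⁻¹ ^ t ≠ 1 := by
      rw [inv_pow, Ne, inv_eq_one]
      exact (zeta_isPrimitiveRoot hN).pow_ne_one_of_pos_of_lt (Nat.pos_of_ne_zero h0).ne' ht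
    have hxN : ((zeta N)⁻¹ ^ t) ^ N = 1 := by
      rw [← pow_mul, mul_comm, pow_mul, inv_pow, zeta_pow_self hN, inv_one, one_pow]
    have : ∑ n ∈ Finset.range N, (zeta N)⁻¹ ^ (n * t) =
        ∑ n ∈ Finset.range N, ((zeta N)⁻¹ ^ t) ^ n := by
      refine Finset.sum_congr rfl fun n _ => ?_
      rw [← pow_mul, mul_comm]
    rw [this, geom_sum_eq hx, hxN, sub_self, zero_div]

/-- Reconstruction of `f` from its Fourier extractions. -/
theorem sum_qN_pow_mul_fourier {N : ℕ} (hN : N ≠ 0) (f : ℍ → ℂ) (τ : ℍ) :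
    ∑ n ∈ Finset.range N, qN N τ ^ n * fourier N n f τ = f τ := by
  have hNC : (N : ℂ) ≠ 0 := by exact_mod_cast hN
  have h1 : ∀ n ∈ Finset.range N, qN N τ ^ n * fourier N n f τ =
      (N : ℂ)⁻¹ * ∑ t ∈ Finset.range N, (zeta N)⁻¹ ^ (n * t) * f ((t : ℝ) +ᵥ τ) := by
    intro n _
    unfold fourier
    rw [← mul_assoc, inv_pow, mul_inv_cancel₀ (pow_ne_zero _ (qN_ne_zero N τ)), one_mul]
  rw [Finset.sum_congr rfl h1, ← Finset.mul_sum, Finset.sum_comm]
  have h2 : ∀ t ∈ Finset.range N,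
      ∑ n ∈ Finset.range N, (zeta N)⁻¹ ^ (n * t) * f ((t : ℝ) +ᵥ τ) =
        (if t = 0 then (N : ℂ) else 0) * f ((t : ℝ) +ᵥ τ) := by
    intro t ht
    rw [← Finset.sum_mul, sum_zeta_inv_pow hN (Finset.mem_range.mp ht)]
  rw [Finset.sum_congr rfl h2]
  simp only [ite_mul, zero_mul]
  rw [Finset.sum_ite_eq' (Finset.range N) 0, if_pos (Finset.mem_range.mpr (Nat.pos_of_ne_zero hN)),
    ← mul_assoc, inv_mul_cancel₀ hNC, one_mul]
  simp

/-- The Fourier extraction of an `N`-periodic function is `1`-periodic. -/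
theorem fourier_vadd_one {N : ℕ} (hN : N ≠ 0) (n : ℕ) {f : ℍ → ℂ}
    (hf : ∀ τ : ℍ, f ((N : ℝ) +ᵥ τ) = f τ) (τ : ℍ) :
    fourier N n f ((1 : ℝ) +ᵥ τ) = fourier N n f τ := by
  unfold fourier
  rw [qN_vadd_one, mul_inv, mul_pow, mul_comm ((zeta N)⁻¹ ^ n), mul_assoc]
  congr 1
  rw [mul_left_comm]
  congr 1
  rw [Finset.mul_sum]
  set g : ℕ → ℂ := fun s => (zeta N)⁻¹ ^ (n * s) * f ((s : ℝ) +ᵥ τ) with hg
  have h1 : ∀ t ∈ Finset.range N,
      (zeta N)⁻¹ ^ n * ((zeta N)⁻¹ ^ (n * t) * f ((t : ℝ) +ᵥ ((1 : ℝ) +ᵥ τ))) = g (t + 1) := by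
    intro t _
    rw [hg]
    simp only
    rw [← mul_assoc, ← pow_add, vadd_vadd]
    congr 2
    · ring_nf
    · push_cast; ring_nf
  rw [Finset.sum_congr rfl h1]
  have h2 := Finset.sum_range_succ' g N
  have h3 := Finset.sum_range_succ g N
  have h4 : g N = g 0 := by
    rw [hg]
    simp only
    rw [hf, pow_mul', inv_pow, zeta_pow_self hN]
    simp
  rw [h3, h4] at h2
  exact add_right_cancel h2.symm

/-! ### Algebraic properties of the Fourier extraction -/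

theorem fourier_sum {ι : Type*} (s : Finset ι) (N n : ℕ) (c : ι → ℂ) (f : ι → ℍ → ℂ) (τ : ℍ) :
    fourier N n (fun z => ∑ i ∈ s, c i * f i z) τ = ∑ i ∈ s, c i * fourier N n (f i) τ := by
  unfold fourier
  simp only [Finset.mul_sum]
  rw [Finset.sum_comm]
  refine Finset.sum_congr rfl fun i _ => Finset.sum_congr rfl fun t _ => ?_
  ring

theorem fourier_mul_of_periodic (N n : ℕ) {h : ℍ → ℂ}
    (hh : ∀ (t : ℕ) (τ : ℍ), h ((t : ℝ) +ᵥ τ) = h τ) (f : ℍ → ℂ) (τ : ℍ) :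
    fourier N n (fun z => h z * f z) τ = h τ * fourier N n f τ := by
  unfold fourier
  simp only [hh, Finset.mul_sum]
  refine Finset.sum_congr rfl fun t _ => ?_
  ring

theorem norm_fourier_le {N : ℕ} (hN : N ≠ 0) (n : ℕ) (f : ℍ → ℂ) (τ : ℍ) {B : ℝ}
    (hB : ∀ t < N, ‖f ((t : ℝ) +ᵥ τ)‖ ≤ B) :
    ‖fourier N n f τ‖ ≤ ‖qN N τ‖⁻¹ ^ n * B := by
  unfold fourier
  rw [norm_mul, norm_pow, norm_inv]
  refine mul_le_mul_of_nonneg_left ?_ (by positivity)
  rw [norm_mul, norm_inv, Complex.norm_natCast]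
  have hNR : (0 : ℝ) < N := by exact_mod_cast Nat.pos_of_ne_zero hN
  rw [inv_mul_le_iff₀ hNR]
  refine (norm_sum_le _ _).trans ?_
  have : ∀ t ∈ Finset.range N, ‖(zeta N)⁻¹ ^ (n * t) * f ((t : ℝ) +ᵥ τ)‖ ≤ B := by
    intro t ht
    rw [norm_mul, norm_pow, norm_inv, norm_zeta, inv_one, one_pow, one_mul]
    exact hB t (Finset.mem_range.mp ht)
  refine (Finset.sum_le_sum this).trans ?_
  simp

/-! ### Analytic properties of the Fourier extraction -/

theorem mdiff_of_differentiable {g : ℂ → ℂ} (hg : Differentiable ℂ g) :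
    MDiff (fun τ : ℍ => g τ) := by
  rw [UpperHalfPlane.mdifferentiable_iff]
  refine hg.differentiableOn.congr fun z hz => ?_
  simp [Function.comp_apply, ofComplex_apply_of_im_pos hz]

theorem mdiff_qN (N : ℕ) : MDiff (qN N) :=
  mdiff_of_differentiable (Function.Periodic.differentiable_qParam (h := (N : ℝ)))

theorem shift_eq_slash (t : ℕ) (f : ℍ → ℂ) :
    (fun τ : ℍ => f ((t : ℝ) +ᵥ τ)) = f ∣[(0 : ℤ)] (ModularGroup.T ^ (t : ℤ)) := by
  funext τ
  rw [ModularForm.SL_slash_apply, UpperHalfPlane.modular_T_zpow_smul]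
  simp

theorem mdiff_shift (t : ℕ) {f : ℍ → ℂ} (hf : MDiff f) :
    MDiff (fun τ : ℍ => f ((t : ℝ) +ᵥ τ)) := by
  rw [shift_eq_slash]
  exact hf.slash 0 _

theorem mdiff_fourier (N n : ℕ) {f : ℍ → ℂ} (hf : MDiff f) : MDiff (fourier N n f) := by
  have h1 : MDiff ((qN N)⁻¹ ^ n) := ((mdiff_qN N).inv (qN_ne_zero N)).pow n
  have h2 : MDiff (∑ t ∈ Finset.range N,
      (fun τ : ℍ => (zeta N)⁻¹ ^ (n * t) * f ((t : ℝ) +ᵥ τ))) := by
    refine MDifferentiable.sum fun t _ => ?_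
    exact (mdifferentiable_const (c := (zeta N)⁻¹ ^ (n * t))).mul (mdiff_shift t hf)
  have h3 := h1.mul ((mdifferentiable_const (c := (N : ℂ)⁻¹)).mul h2)
  have h4 : fourier N n f = (qN N)⁻¹ ^ n * ((fun _ => (N : ℂ)⁻¹) *
      ∑ t ∈ Finset.range N, (fun τ : ℍ => (zeta N)⁻¹ ^ (n * t) * f ((t : ℝ) +ᵥ τ))) := by
    funext τ
    simp [fourier, Finset.sum_apply]
  rw [h4]
  exact h3

theorem isBoundedAtImInfty_shift (t : ℝ) {f : ℍ → ℂ} (hf : IsBoundedAtImInfty f) :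
    IsBoundedAtImInfty (fun τ : ℍ => f (t +ᵥ τ)) := by
  rw [UpperHalfPlane.isBoundedAtImInfty_iff] at hf ⊢
  obtain ⟨M, A, h⟩ := hf
  exact ⟨M, A, fun z hz => h _ (by rwa [vadd_im])⟩

theorem periodic_comp_ofComplex_of_vadd {g : ℍ → ℂ} {h : ℝ}
    (hg : ∀ τ : ℍ, g (h +ᵥ τ) = g τ) : Function.Periodic (g ∘ ofComplex) h := by
  intro w
  by_cases hw : 0 < im w
  · have hw' : 0 < im (w + h) := by simp [hw]
    simp only [comp_apply, ofComplex_apply_of_im_pos hw', ofComplex_apply_of_im_pos hw]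
    rw [← hg ⟨w, hw⟩]
    congr 1
    ext
    simp [add_comm]
  · rw [not_lt] at hw
    have hw' : im (w + h) ≤ 0 := by simpa using hw
    simp [ofComplex_apply_of_im_nonpos hw', ofComplex_apply_of_im_nonpos hw]

theorem norm_qParam_one (τ : ℍ) : ‖𝕢 1 (τ : ℂ)‖ = Real.exp (-2 * π * τ.im) := by
  rw [Function.Periodic.norm_qParam]
  simp

/-- Key growth estimate: for `n < N` the Fourier extraction is dominated by `‖q_N‖⁻¹ ^ n`. -/
theorem exists_norm_fourier_le {N : ℕ} (hN : N ≠ 0) (n : ℕ) {f : ℍ → ℂ}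
    (hbd : IsBoundedAtImInfty f) :
    ∃ M A : ℝ, 0 ≤ M ∧ ∀ τ : ℍ, A ≤ τ.im → ‖fourier N n f τ‖ ≤ ‖qN N τ‖⁻¹ ^ n * M := by
  rw [UpperHalfPlane.isBoundedAtImInfty_iff] at hbd
  obtain ⟨M, A, h⟩ := hbd
  refine ⟨max M 0, A, le_max_right _ _, fun τ hτ => ?_⟩
  refine norm_fourier_le hN n f τ fun t _ => ?_
  exact (h _ (by rwa [vadd_im])).trans (le_max_left _ _)

theorem isZeroAtImInfty_qParam_mul_fourier {N n : ℕ} (hN : N ≠ 0) (hn : n < N) {f : ℍ → ℂ}
    (hbd : IsBoundedAtImInfty f) :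
    IsZeroAtImInfty (fun τ : ℍ => 𝕢 1 (τ : ℂ) * fourier N n f τ) := by
  obtain ⟨M, A, hM, h⟩ := exists_norm_fourier_le hN n hbd
  have hNR : (0 : ℝ) < N := by exact_mod_cast Nat.pos_of_ne_zero hN
  have hq : Tendsto (fun τ : ℍ => ‖qN N τ‖ * M) atImInfty (𝓝 0) := by
    have := (UpperHalfPlane.qParam_tendsto_atImInfty hNR).norm
    simpa [qN] using this.mul_const M
  refine squeeze_zero_norm' ?_ hq
  have hA : ∀ᶠ τ : ℍ in atImInfty, A ≤ τ.im :=
    (atImInfty_basis.mem_of_mem (i := A) trivial)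
  filter_upwards [hA] with τ hτ
  have hpos : 0 < ‖qN N τ‖ := norm_pos_iff.mpr (qN_ne_zero N τ)
  have hlt : ‖qN N τ‖ < 1 := norm_qN_lt_one hN τ
  rw [norm_mul, ← qN_pow_self hN τ, norm_pow]
  calc ‖qN N τ‖ ^ N * ‖fourier N n f τ‖
      ≤ ‖qN N τ‖ ^ N * (‖qN N τ‖⁻¹ ^ n * M) :=
        mul_le_mul_of_nonneg_left (h τ hτ) (by positivity)
    _ = ‖qN N τ‖ ^ (N - n) * M := by
        rw [← mul_assoc, inv_pow, pow_sub₀ _ hpos.ne' hn.le]
    _ ≤ ‖qN N τ‖ * M := by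
        refine mul_le_mul_of_nonneg_right ?_ hM
        calc ‖qN N τ‖ ^ (N - n) ≤ ‖qN N τ‖ ^ 1 :=
              pow_le_pow_of_le_one hpos.le hlt.le (by omega)
          _ = ‖qN N τ‖ := pow_one _

theorem mdiff_qParam_one : MDiff (fun τ : ℍ => 𝕢 1 (τ : ℂ)) :=
  mdiff_of_differentiable (Function.Periodic.differentiable_qParam (h := (1 : ℝ)))

theorem qParam_one_vadd_one (τ : ℍ) : 𝕢 1 (((1 : ℝ) +ᵥ τ : ℍ) : ℂ) = 𝕢 1 (τ : ℂ) := by
  have h1 := qN_vadd_one 1 τ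
  have h2 : zeta 1 = 1 := by simpa using zeta_pow_self (N := 1) one_ne_zero
  simpa [qN, h2] using h1

/-- For `n < N`, the Fourier extraction of an `N`-periodic holomorphic function bounded at `i∞` is
bounded at `i∞`. -/
theorem isBoundedAtImInfty_fourier {N n : ℕ} (hN : N ≠ 0) (hn : n < N) {f : ℍ → ℂ}
    (hf : MDiff f) (hper : ∀ τ : ℍ, f ((N : ℝ) +ᵥ τ) = f τ) (hbd : IsBoundedAtImInfty f) :
    IsBoundedAtImInfty (fourier N n f) := by
  have hz := isZeroAtImInfty_qParam_mul_fourier hN hn hbd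
  have hmd : MDiff (fun τ : ℍ => 𝕢 1 (τ : ℂ) * fourier N n f τ) :=
    mdiff_qParam_one.mul (mdiff_fourier N n hf)
  have hp : Function.Periodic ((fun τ : ℍ => 𝕢 1 (τ : ℂ) * fourier N n f τ) ∘ ofComplex) 1 := by
    refine periodic_comp_ofComplex_of_vadd fun τ => ?_
    rw [qParam_one_vadd_one, fourier_vadd_one hN n hper]
  have hdecay := hz.exp_decay_atImInfty one_pos hp hmd hz.isBoundedAtImInfty
  rw [IsBoundedAtImInfty, BoundedAtFilter]
  have h1 : (fourier N n f) =ᶠ[atImInfty]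
      fun τ => (𝕢 1 (τ : ℂ))⁻¹ * (𝕢 1 (τ : ℂ) * fourier N n f τ) := by
    refine Eventually.of_forall fun τ => ?_
    show fourier N n f τ = (𝕢 1 (τ : ℂ))⁻¹ * (𝕢 1 (τ : ℂ) * fourier N n f τ)
    rw [← mul_assoc, inv_mul_cancel₀ (Function.Periodic.qParam_ne_zero _), one_mul]
  refine (Asymptotics.isBigO_congr h1 (EventuallyEq.refl _ _)).mpr ?_
  have h2 : (fun τ : ℍ => (𝕢 1 (τ : ℂ))⁻¹) =O[atImInfty]
      fun τ : ℍ => (Real.exp (-2 * π * τ.im / 1))⁻¹ := by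
    refine Asymptotics.IsBigO.of_bound 1 (Eventually.of_forall fun τ => ?_)
    rw [norm_inv, norm_qParam_one, one_mul, div_one, norm_inv, Real.norm_eq_abs, abs_of_pos
      (Real.exp_pos _)]
  have h3 := h2.mul hdecay
  refine h3.trans (Asymptotics.IsBigO.of_bound 1 (Eventually.of_forall fun τ => ?_))
  rw [inv_mul_cancel₀ (Real.exp_pos _).ne']
  simp

theorem tendsto_exp_neg_atImInfty :
    Tendsto (fun τ : ℍ => Real.exp (-2 * π * τ.im / 1)) atImInfty (𝓝 0) := by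
  have h := (UpperHalfPlane.qParam_tendsto_atImInfty one_pos).norm
  simp only [norm_zero] at h
  refine h.congr fun τ => ?_
  rw [norm_qParam_one, div_one]

/-- The limit at `i∞` of the Fourier extraction: the `n`-th Fourier coefficient in `q_N`. -/
theorem tendsto_fourier {N n : ℕ} (hN : N ≠ 0) (hn : n < N) {f : ℍ → ℂ}
    (hf : MDiff f) (hper : ∀ τ : ℍ, f ((N : ℝ) +ᵥ τ) = f τ) (hbd : IsBoundedAtImInfty f) :
    Tendsto (fourier N n f) atImInfty (𝓝 (valueAtInfty (fourier N n f))) := by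
  have hp : Function.Periodic ((fourier N n f) ∘ ofComplex) 1 :=
    periodic_comp_ofComplex_of_vadd fun τ => fourier_vadd_one hN n hper τ
  have h := UpperHalfPlane.exp_decay_sub_atImInfty one_pos hp (mdiff_fourier N n hf)
    (isBoundedAtImInfty_fourier hN hn hf hper hbd)
  have h0 := h.trans_tendsto tendsto_exp_neg_atImInfty
  have := h0.add_const (valueAtInfty (fourier N n f))
  simpa using this

/-- If the `n`-th coefficient vanishes, the Fourier extraction is `O(q)`. -/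
theorem fourier_isBigO_of_tendsto_zero {N n : ℕ} (hN : N ≠ 0) (hn : n < N) {f : ℍ → ℂ}
    (hf : MDiff f) (hper : ∀ τ : ℍ, f ((N : ℝ) +ᵥ τ) = f τ) (hbd : IsBoundedAtImInfty f)
    (h0 : Tendsto (fourier N n f) atImInfty (𝓝 0)) :
    fourier N n f =O[atImInfty] fun τ : ℍ => Real.exp (-2 * π * τ.im) := by
  have hp : Function.Periodic ((fourier N n f) ∘ ofComplex) 1 :=
    periodic_comp_ofComplex_of_vadd fun τ => fourier_vadd_one hN n hper τ
  have hz : IsZeroAtImInfty (fourier N n f) := h0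
  have := hz.exp_decay_atImInfty one_pos hp (mdiff_fourier N n hf)
    (isBoundedAtImInfty_fourier hN hn hf hper hbd)
  simpa using this

end Fermat.Agent.S20FM_helper57
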