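import Mathlib
import Fermat.Agent.S23.Basic
import Fermat.Agent.S23.Unbundled
import Fermat.Agent.S20FM_helper57.Fourier

set_option autoImplicit false

open UpperHalfPlane Complex Filter Topology Function ModularForm
open scoped Real MatrixGroups ModularForm Manifold
open Fermat.Agent.S23

namespace Fermat.Agent.S20FM_helper57

local notation "𝕢" => Function.Periodic.qParam

/-- The coset space `SL(2, ℤ) ⧸ Γ₀(N)`. -/
abbrev Q (N : ℕ) : Type := SL(2, ℤ) ⧸ CongruenceSubgroup.Gamma0 N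

theorem Gamma_le_Gamma0 (N : ℕ) : CongruenceSubgroup.Gamma N ≤ CongruenceSubgroup.Gamma0 N := by
  intro γ hγ
  rw [CongruenceSubgroup.Gamma_mem] at hγ
  rw [CongruenceSubgroup.Gamma0_mem]
  exact hγ.2.2.1

/-- Conjugating `T ^ N` lands in `Γ₀(N)`. -/
theorem conj_T_pow_mem_Gamma0 (N : ℕ) (g : SL(2, ℤ)) :
    g * ModularGroup.T ^ (N : ℤ) * g⁻¹ ∈ CongruenceSubgroup.Gamma0 N := by
  apply Gamma_le_Gamma0
  have h := CongruenceSubgroup.ModularGroup_T_pow_mem_Gamma (N : ℤ) (N : ℤ) dvd_rfl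
  rw [Int.natAbs_natCast] at h
  exact (CongruenceSubgroup.Gamma_normal N).conj_mem _ h g

section conj

variable {N : ℕ} {k : ℤ} {f : ℍ → ℂ}

theorem slash_Gamma0_mul (hf : IsMF (G0 N) k f) {γ : SL(2, ℤ)}
    (hγ : γ ∈ CongruenceSubgroup.Gamma0 N) (g : SL(2, ℤ)) :
    f ∣[k] (γ * g) = f ∣[k] g := by
  rw [SlashAction.slash_mul]
  congr 1
  exact hf.slash_eq (Subgroup.mem_map_of_mem _ hγ)

theorem denom_T_zpow (t : ℤ) (τ : ℍ) :
    denom (ModularGroup.T ^ t : SL(2, ℤ)) τ = 1 := by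
  rw [ModularGroup.denom_apply, ModularGroup.coe_T_zpow]
  simp

/-- Shifting a conjugate by an integer translation gives another conjugate. -/
theorem slash_vadd_nat (k : ℤ) (f : ℍ → ℂ) (g : SL(2, ℤ)) (t : ℕ) (τ : ℍ) :
    (f ∣[k] g) ((t : ℝ) +ᵥ τ) = (f ∣[k] (g * ModularGroup.T ^ (t : ℤ))) τ := by
  rw [SlashAction.slash_mul, ModularForm.SL_slash_apply (f := f ∣[k] g), denom_T_zpow,
    one_zpow, mul_one, UpperHalfPlane.modular_T_zpow_smul]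
  simp

/-- The conjugates of a form on `Γ₀(N)` are `N`-periodic. -/
theorem slash_vadd_N (hf : IsMF (G0 N) k f) (g : SL(2, ℤ)) (τ : ℍ) :
    (f ∣[k] g) ((N : ℝ) +ᵥ τ) = (f ∣[k] g) τ := by
  rw [slash_vadd_nat]
  have h : g * ModularGroup.T ^ (N : ℤ) = (g * ModularGroup.T ^ (N : ℤ) * g⁻¹) * g := by group
  rw [h, slash_Gamma0_mul hf (conj_T_pow_mem_Gamma0 N g)]

theorem mdiff_slash (hf : IsMF (G0 N) k f) (g : SL(2, ℤ)) : MDiff (f ∣[k] g) :=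
  hf.mdiff.slash k _

theorem isBoundedAtImInfty_slash [NeZero N] (hf : IsMF (G0 N) k f) (g : SL(2, ℤ)) :
    IsBoundedAtImInfty (f ∣[k] g) :=
  hf.isBoundedAtImInfty_slash g

end conj

section cosets

variable {N : ℕ} {k : ℤ} {f : ℍ → ℂ}

/-- The conjugate of `f` attached to a coset `x = gΓ₀(N)`: `f ∣ g⁻¹`. -/
noncomputable def cjQ (k : ℤ) (f : ℍ → ℂ) (x : Q N) : ℍ → ℂ := f ∣[k] (x.out)⁻¹

theorem slash_eq_cjQ (hf : IsMF (G0 N) k f) (g : SL(2, ℤ)) :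
    f ∣[k] g = cjQ k f ((g⁻¹ : SL(2, ℤ)) : Q N) := by
  obtain ⟨γ, hγ⟩ := QuotientGroup.mk_out_eq_mul (CongruenceSubgroup.Gamma0 N) g⁻¹
  unfold cjQ
  rw [hγ, mul_inv_rev, inv_inv, slash_Gamma0_mul hf (inv_mem γ.2)]

theorem cjQ_slash (hf : IsMF (G0 N) k f) (x : Q N) (h : SL(2, ℤ)) :
    (cjQ k f x) ∣[k] h = cjQ k f (h⁻¹ • x) := by
  unfold cjQ
  rw [← SlashAction.slash_mul, slash_eq_cjQ hf]
  unfold cjQ
  congr 3
  rw [mul_inv_rev, inv_inv]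
  conv_rhs => rw [← QuotientGroup.out_eq' x]
  rfl

theorem cjQ_smul_apply (hf : IsMF (G0 N) k f) (x : Q N) (h : SL(2, ℤ)) (τ : ℍ) :
    cjQ k f x (h • τ) = denom h τ ^ k * cjQ k f (h⁻¹ • x) τ := by
  rw [← cjQ_slash hf, ModularForm.SL_slash_apply, mul_comm, mul_assoc, ← zpow_add₀
    (denom_ne_zero _ τ)]
  simp

theorem cjQ_vadd_nat (hf : IsMF (G0 N) k f) (x : Q N) (t : ℕ) (τ : ℍ) :
    cjQ k f x ((t : ℝ) +ᵥ τ) = cjQ k f ((ModularGroup.T ^ (t : ℤ))⁻¹ • x) τ := by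
  rw [← cjQ_slash hf x (ModularGroup.T ^ (t : ℤ))]
  unfold cjQ
  rw [slash_vadd_nat, SlashAction.slash_mul]

theorem cjQ_vadd_N (hf : IsMF (G0 N) k f) (x : Q N) (τ : ℍ) :
    cjQ k f x ((N : ℝ) +ᵥ τ) = cjQ k f x τ :=
  slash_vadd_N hf _ τ

theorem mdiff_cjQ (hf : IsMF (G0 N) k f) (x : Q N) : MDiff (cjQ k f x) :=
  mdiff_slash hf _

theorem isBoundedAtImInfty_cjQ [NeZero N] (hf : IsMF (G0 N) k f) (x : Q N) :
    IsBoundedAtImInfty (cjQ k f x) :=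
  isBoundedAtImInfty_slash hf _

theorem cjQ_one (hf : IsMF (G0 N) k f) : cjQ k f ((1 : SL(2, ℤ)) : Q N) = f := by
  rw [← inv_one, ← slash_eq_cjQ hf]
  exact SlashAction.slash_one k f

/-- The conjugates of a level one form are the form itself. -/
theorem cjQ_levelOne (hf : IsMF 𝒮ℒ k f) (x : Q N) : cjQ k f x = f := by
  unfold cjQ
  exact hf.slash_eq ⟨_, rfl⟩

theorem cjQ_mul (k₁ k₂ : ℤ) (f₁ f₂ : ℍ → ℂ) (x : Q N) :
    cjQ (k₁ + k₂) (f₁ * f₂) x = cjQ k₁ f₁ x * cjQ k₂ f₂ x :=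
  ModularForm.mul_slash_SL2 k₁ k₂ _ f₁ f₂

end cosets

end Fermat.Agent.S20FM_helper57
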