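import Mathlib
import Fermat.Agent.S23.Basic
import Fermat.Agent.S23.Unbundled
import Fermat.Agent.S20FM.Defs
import Fermat.Agent.S20FM.LevelOneRing
import Fermat.Agent.S20FM.Regular
import Fermat.Agent.S20FM_helper57.Fourier
import Fermat.Agent.S20FM_helper57.Conj

/-!
# FM4: growth of the inverse of the matrix of conjugates of a free basis at `i∞`

For a homogeneous free basis `b i` (weights `d i`) of the module of modular forms of level
`Γ₀(N)` over the ring of level one forms, the matrix `Φ(τ) = (b i ∣ g_x⁻¹ (τ))` of conjugates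
satisfies `‖Φ(τ)⁻¹‖ = O(exp (2π (1 - 1/N) im τ))` as `im τ → ∞`.
-/

set_option autoImplicit false

open UpperHalfPlane Complex Filter Topology Function ModularForm
open scoped Real MatrixGroups ModularForm Manifold
open Fermat.Agent.S23

namespace Fermat.Agent.S20FM_helper57

local notation "𝕢" => Function.Periodic.qParam
local notation "Δ" => ModularForm.discriminant

/-! ### Level one forms -/

theorem levelOne_vadd_nat {k : ℤ} {f : ℍ → ℂ} (hf : IsMF 𝒮ℒ k f) (t : ℕ) (τ : ℍ) :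
    f ((t : ℝ) +ᵥ τ) = f τ := by
  have h1 := slash_vadd_nat k f 1 t τ
  have h2 : f ∣[k] (1 : SL(2, ℤ)) = f := SlashAction.slash_one k f
  have h3 : f ∣[k] ((1 : SL(2, ℤ)) * ModularGroup.T ^ (t : ℤ)) = f := hf.slash_eq ⟨_, rfl⟩
  rw [h2, h3] at h1
  exact h1

/-- For every even weight `a ≥ 4` there is a level one form of weight `a` tending to `1`. -/
theorem exists_levelOne_tendsto_one {a : ℤ} (ha : Even a) (h4 : 4 ≤ a) :
    ∃ h : ℍ → ℂ, IsMF 𝒮ℒ a h ∧ Tendsto h atImInfty (𝓝 1) := by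
  obtain ⟨t, ht⟩ := ha
  rcases Int.even_or_odd' t with ⟨s, hs | hs⟩
  · have hs0 : 0 ≤ s := by omega
    obtain ⟨u, rfl⟩ := Int.eq_ofNat_of_zero_le hs0
    refine ⟨_, (Fermat.Agent.S20FM.isMF_monomial u 0).congr_weight (by push_cast; omega), ?_⟩
    have := Fermat.Agent.S20FM.tendsto_levelOne (Fermat.Agent.S20FM.isMF_monomial u 0)
    rwa [Fermat.Agent.S20FM.coeff_zero_monomial] at this
  · have hs0 : 0 ≤ s - 1 := by omega
    obtain ⟨u, hu⟩ := Int.eq_ofNat_of_zero_le hs0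
    refine ⟨_, (Fermat.Agent.S20FM.isMF_monomial u 1).congr_weight (by push_cast; omega), ?_⟩
    have := Fermat.Agent.S20FM.tendsto_levelOne (Fermat.Agent.S20FM.isMF_monomial u 1)
    rwa [Fermat.Agent.S20FM.coeff_zero_monomial] at this

/-! ### Division by the discriminant -/

theorem mdiff_Delta : MDiff (Δ : ℍ → ℂ) := Fermat.Agent.S20FM.isMF_Delta.mdiff

theorem Delta_slash (g : SL(2, ℤ)) : (Δ : ℍ → ℂ) ∣[(12 : ℤ)] g = Δ :=
  Fermat.Agent.S20FM.isMF_Delta.slash_eq ⟨g, rfl⟩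

/-- A form of level `Γ₀(N)` all of whose conjugates are `O(q)` at `i∞` is divisible by `Δ`. -/
theorem isMF_div_Delta {N : ℕ} [NeZero N] {K : ℤ} {F : ℍ → ℂ} (hF : IsMF (G0 N) K F)
    (hO : ∀ x : Q N, cjQ K F x =O[atImInfty] fun τ : ℍ => Real.exp (-2 * π * τ.im)) :
    IsMF (G0 N) (K - 12) (F / Δ) := by
  have hsl : ∀ g : SL(2, ℤ), (F / Δ) ∣[K - 12] g = (F ∣[K] g) / Δ := by
    intro g
    rw [ModularForm.div_slash_SL2, Delta_slash]
  refine ⟨{ toFun := F / Δ
            slash_action_eq' := ?_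
            holo' := hF.mdiff.div mdiff_Delta ModularForm.discriminant_ne_zero
            bdd_at_cusps' := ?_ }, rfl⟩
  · intro γ hγ
    obtain ⟨g, hg, rfl⟩ := hγ
    have h1 : F ∣[K] g = F := hF.slash_eq (Subgroup.mem_map_of_mem _ hg)
    have h2 := hsl g
    rw [h1] at h2
    exact h2
  · intro c hc
    rw [Subgroup.IsArithmetic.isCusp_iff_isCusp_SL2Z] at hc
    rw [OnePoint.isBoundedAt_iff_forall_SL2Z hc]
    intro γ _
    have h1 : (F / Δ) ∣[K - 12] γ = (cjQ K F ((γ⁻¹ : SL(2, ℤ)) : Q N)) / Δ := by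
      rw [hsl γ, slash_eq_cjQ hF]
    rw [h1]
    have h2 := (hO ((γ⁻¹ : SL(2, ℤ)) : Q N)).trans ModularForm.exp_isBigO_discriminant
    rw [Asymptotics.isBigO_iff] at h2
    obtain ⟨C, hC⟩ := h2
    rw [IsBoundedAtImInfty, BoundedAtFilter]
    refine Asymptotics.IsBigO.of_bound C ?_
    filter_upwards [hC] with τ hτ
    have hΔ : 0 < ‖Δ τ‖ := norm_pos_iff.mpr (ModularForm.discriminant_ne_zero τ)
    rw [Pi.div_apply, norm_div, div_le_iff₀ hΔ]
    simpa using hτ

/-! ### The leading coefficients of the conjugates of a free basis -/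

theorem cjQ_mul_cast {N : ℕ} {k₁ k₂ k : ℤ} (h : k₁ + k₂ = k) (f₁ f₂ : ℍ → ℂ) (x : Q N) :
    cjQ k (f₁ * f₂) x = cjQ k₁ f₁ x * cjQ k₂ f₂ x := by
  subst h
  exact cjQ_mul k₁ k₂ f₁ f₂ x

theorem cjQ_sum_smul {N : ℕ} {ι : Type*} (s : Finset ι) (k : ℤ) (c : ι → ℂ) (f : ι → ℍ → ℂ)
    (x : Q N) (τ : ℍ) :
    cjQ k (∑ i ∈ s, c i • f i) x τ = ∑ i ∈ s, c i * cjQ k (f i) x τ := by
  unfold cjQ
  simp only [ModularForm.SL_slash_apply, Finset.sum_apply, Pi.smul_apply, smul_eq_mul,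
    Finset.sum_mul]
  exact Finset.sum_congr rfl fun i _ => by ring

section lead

variable {N : ℕ} [NeZero N] (B : Fermat.Agent.S20FM.FreeBasis (G0 N))

/-- The `n`-th Fourier coefficient (in `q_N`) of the conjugate of `b i` along the coset `x`. -/
noncomputable def lead (n : ℕ) (x : Q N) (i : Fin B.m) : ℂ :=
  valueAtInfty (fourier N n (cjQ (B.d i) (B.b i) x))

theorem tendsto_fourier_cjQ {n : ℕ} (hn : n < N) (x : Q N) (i : Fin B.m) :
    Tendsto (fourier N n (cjQ (B.d i) (B.b i) x)) atImInfty (𝓝 (lead B n x i)) :=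
  tendsto_fourier (NeZero.ne N) hn (mdiff_cjQ (B.isMF i) x) (cjQ_vadd_N (B.isMF i) x)
    (isBoundedAtImInfty_cjQ (B.isMF i) x)

/-- **Injectivity of the matrix of leading coefficients.**  If a constant combination of the
vectors of the first `N` Fourier coefficients at all conjugates vanishes, it is trivial. -/
theorem leading_injective (heven : ∀ i, Even (B.d i)) (c : Fin B.m → ℂ)
    (h0 : ∀ n < N, ∀ x : Q N, ∑ i, c i * lead B n x i = 0) : ∀ i, c i = 0 := by
  classical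
  have hN : N ≠ 0 := NeZero.ne N
  set K : ℤ := 4 + 2 * ∑ j, |B.d j| with hK
  have hle : ∀ i, |B.d i| ≤ ∑ j, |B.d j| := fun i =>
    Finset.single_le_sum (f := fun j => |B.d j|) (fun j _ => abs_nonneg _) (Finset.mem_univ i)
  have hK4 : ∀ i, 4 ≤ K - B.d i := by
    intro i
    have h1 := hle i
    have h2 := le_abs_self (B.d i)
    have h3 := abs_nonneg (B.d i)
    omega
  have hKe : ∀ i, Even (K - B.d i) := by
    intro i
    refine Even.sub ?_ (heven i)
    exact Even.add (by decide) (even_two_mul _)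
  choose h hhMF hhlim using fun i => exists_levelOne_tendsto_one (hKe i) (hK4 i)
  -- the form `F`
  set F : ℍ → ℂ := ∑ i, c i • (h i * B.b i) with hFdef
  have hterm : ∀ i, IsMF (G0 N) K (h i * B.b i) := fun i =>
    (hhMF i).levelOne_to_G0.mul_cast (B.isMF i) (by ring)
  have hF : IsMF (G0 N) K F := IsMF.sum _ fun i _ => (hterm i).smul (c i)
  -- conjugates of `F`
  have hcj : ∀ (x : Q N) (τ : ℍ),
      cjQ K F x τ = ∑ i, c i * (h i τ * cjQ (B.d i) (B.b i) x τ) := by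
    intro x τ
    rw [hFdef, cjQ_sum_smul]
    refine Finset.sum_congr rfl fun i _ => ?_
    rw [cjQ_mul_cast (by ring : (K - B.d i) + B.d i = K), cjQ_levelOne (hhMF i)]
    rfl
  -- the Fourier extractions of the conjugates tend to zero
  have hfou : ∀ n < N, ∀ x : Q N, Tendsto (fourier N n (cjQ K F x)) atImInfty (𝓝 0) := by
    intro n hn x
    have h1 : fourier N n (cjQ K F x) =
        fun τ => ∑ i, c i * (h i τ * fourier N n (cjQ (B.d i) (B.b i) x) τ) := by
      funext τ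
      have h2 : cjQ K F x = fun z => ∑ i, c i * (h i z * cjQ (B.d i) (B.b i) x z) :=
        funext (hcj x)
      rw [h2, fourier_sum]
      refine Finset.sum_congr rfl fun i _ => ?_
      rw [fourier_mul_of_periodic N n (levelOne_vadd_nat (hhMF i))]
    rw [h1, ← h0 n hn x]
    refine tendsto_finsetSum _ fun i _ => ?_
    have h3 := ((hhlim i).mul (tendsto_fourier_cjQ B hn x i)).const_mul (c i)
    simpa using h3
  -- hence the conjugates are `O(q)`
  have hO : ∀ x : Q N, cjQ K F x =O[atImInfty] fun τ : ℍ => Real.exp (-2 * π * τ.im) := by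
    intro x
    have h1 : cjQ K F x =
        ∑ n ∈ Finset.range N, fun τ => qN N τ ^ n * fourier N n (cjQ K F x) τ := by
      funext τ
      rw [Finset.sum_apply]
      exact (sum_qN_pow_mul_fourier hN _ τ).symm
    rw [h1]
    refine Asymptotics.IsBigO.sum fun n hn => ?_
    have hn' := Finset.mem_range.mp hn
    have h2 := fourier_isBigO_of_tendsto_zero hN hn' (mdiff_cjQ hF x) (cjQ_vadd_N hF x)
      (isBoundedAtImInfty_cjQ hF x) (hfou n hn' x)
    rw [Asymptotics.isBigO_iff] at h2 ⊢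
    obtain ⟨C, hC⟩ := h2
    refine ⟨C, ?_⟩
    filter_upwards [hC] with τ hτ
    rw [norm_mul, norm_pow]
    have hq : ‖qN N τ‖ ^ n ≤ 1 := pow_le_one₀ (norm_nonneg _) (norm_qN_lt_one hN τ).le
    calc ‖qN N τ‖ ^ n * ‖fourier N n (cjQ K F x) τ‖
        ≤ 1 * ‖fourier N n (cjQ K F x) τ‖ := mul_le_mul_of_nonneg_right hq (norm_nonneg _)
      _ = ‖fourier N n (cjQ K F x) τ‖ := one_mul _
      _ ≤ _ := hτ
  -- divide by `Δ` and expand in the basis
  have hG := isMF_div_Delta hF hO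
  obtain ⟨r, hr, hGr⟩ := B.gen _ _ hG
  have hrel : ∑ i, (c i • h i - Δ * r i) * B.b i = 0 := by
    have hF2 : F = Δ * (F / Δ) := by
      funext τ
      simp only [Pi.mul_apply, Pi.div_apply]
      rw [mul_div_cancel₀ _ (ModularForm.discriminant_ne_zero τ)]
    have hF3 : F = ∑ i, (Δ * r i) * B.b i := by
      rw [hF2, hGr, Finset.mul_sum]
      refine Finset.sum_congr rfl fun i _ => ?_
      rw [mul_assoc]
    simp only [sub_mul, Finset.sum_sub_distrib]
    rw [← hF3, sub_eq_zero, hFdef]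
    refine Finset.sum_congr rfl fun i _ => ?_
    rw [smul_mul_assoc]
  have hind := B.indep K (fun i => c i • h i - Δ * r i)
    (fun i => ((hhMF i).smul (c i)).sub
      (Fermat.Agent.S20FM.isMF_Delta.mul_cast (hr i) (by ring))) hrel
  intro i
  have h1 : ∀ τ, c i * h i τ = Δ τ * r i τ := by
    intro τ
    have h5 := congrFun (hind i) τ
    simp only [Pi.sub_apply, Pi.smul_apply, Pi.mul_apply, smul_eq_mul, Pi.zero_apply] at h5
    exact sub_eq_zero.mp h5
  have h2 : Tendsto (fun τ => c i * h i τ) atImInfty (𝓝 (c i * 1)) := (hhlim i).const_mul (c i)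
  have h3 : Tendsto (fun τ => Δ τ * r i τ) atImInfty (𝓝 (0 * _)) :=
    (ModularForm.discriminant_isZeroAtImInfty).mul (Fermat.Agent.S20FM.tendsto_levelOne (hr i))
  have h4 : (fun τ => c i * h i τ) = fun τ => Δ τ * r i τ := funext h1
  rw [h4] at h2
  have h6 := tendsto_nhds_unique h2 h3
  simpa using h6

end lead

/-! ### The growth estimate -/

section growth

variable {N : ℕ} [NeZero N] [Fintype (Q N)] (B : Fermat.Agent.S20FM.FreeBasis (G0 N))

/-- The matrix of leading coefficients as a linear map. -/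
noncomputable def leadLin : (Fin B.m → ℂ) →ₗ[ℂ] (Fin N × Q N → ℂ) :=
  Matrix.mulVecLin (Matrix.of fun (p : Fin N × Q N) (i : Fin B.m) => lead B p.1 p.2 i)

omit [NeZero N] [Fintype (Q N)] in
theorem leadLin_apply (c : Fin B.m → ℂ) (p : Fin N × Q N) :
    leadLin B c p = ∑ i, c i * lead B p.1 p.2 i := by
  unfold leadLin
  rw [Matrix.mulVecLin_apply, Matrix.mulVec, dotProduct]
  exact Finset.sum_congr rfl fun i _ => mul_comm _ _

omit [Fintype (Q N)] in
theorem leadLin_ker (heven : ∀ i, Even (B.d i)) : LinearMap.ker (leadLin B) = ⊥ := by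
  rw [LinearMap.ker_eq_bot']
  intro c hc
  funext i
  refine leading_injective B heven c ?_ i
  intro n hn x
  have h1 := congrFun hc (⟨n, hn⟩, x)
  rw [leadLin_apply] at h1
  exact h1

omit [Fintype (Q N)] in
theorem norm_qN_inv_pow (τ : ℍ) :
    ‖qN N τ‖⁻¹ ^ (N - 1) = Real.exp (2 * π * τ.im * (1 - 1 / N)) := by
  have hN : (N : ℝ) ≠ 0 := by exact_mod_cast NeZero.ne N
  have h1 : 1 ≤ N := Nat.one_le_iff_ne_zero.mpr (NeZero.ne N)
  rw [norm_qN, ← Real.exp_neg, ← Real.exp_nat_mul]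
  congr 1
  rw [Nat.cast_sub h1]
  push_cast
  field_simp

/-- The value of the `τ`-dependent Fourier matrix is controlled by the conjugates. -/
theorem norm_sum_fourier_le (c : Fin B.m → ℂ) (n : Fin N) (x : Q N) (τ : ℍ) :
    ‖∑ i, c i * fourier N n (cjQ (B.d i) (B.b i) x) τ‖ ≤
      Real.exp (2 * π * τ.im * (1 - 1 / N)) *
        ∑ y : Q N, ‖∑ i, c i * cjQ (B.d i) (B.b i) y τ‖ := by
  have hN : N ≠ 0 := NeZero.ne N
  set S : ℝ := ∑ y : Q N, ‖∑ i, c i * cjQ (B.d i) (B.b i) y τ‖ with hS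
  have hS0 : 0 ≤ S := Finset.sum_nonneg fun _ _ => norm_nonneg _
  rw [← fourier_sum Finset.univ N n c (fun i => cjQ (B.d i) (B.b i) x) τ]
  have h1 : ∀ t < N, ‖(fun z => ∑ i, c i * cjQ (B.d i) (B.b i) x z) ((t : ℝ) +ᵥ τ)‖ ≤ S := by
    intro t _
    simp only
    have h2 : ∀ i, cjQ (B.d i) (B.b i) x ((t : ℝ) +ᵥ τ) =
        cjQ (B.d i) (B.b i) ((ModularGroup.T ^ (t : ℤ))⁻¹ • x) τ :=
      fun i => cjQ_vadd_nat (B.isMF i) x t τ
    simp only [h2]
    exact Finset.single_le_sum (f := fun y : Q N => ‖∑ i, c i * cjQ (B.d i) (B.b i) y τ‖)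
      (fun _ _ => norm_nonneg _) (Finset.mem_univ _)
  refine (norm_fourier_le hN n _ τ h1).trans ?_
  refine mul_le_mul_of_nonneg_right ?_ hS0
  rw [← norm_qN_inv_pow]
  have hq1 : 1 ≤ ‖qN N τ‖⁻¹ := by
    rw [one_le_inv₀ (norm_pos_iff.mpr (qN_ne_zero N τ))]
    exact (norm_qN_lt_one hN τ).le
  exact pow_le_pow_right₀ hq1 (by have := n.2; omega)

/-- **FM4.**  Growth of the inverse of the matrix of conjugates of a free basis at `i∞`. -/
theorem growth (heven : ∀ i, Even (B.d i)) :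
    ∃ A C : ℝ, 0 < C ∧ ∀ τ : ℍ, A ≤ τ.im → ∀ c : Fin B.m → ℂ,
      (∑ i, ‖c i‖) ≤ C * Real.exp (2 * π * τ.im * (1 - 1 / N)) *
        ∑ x : SL(2, ℤ) ⧸ CongruenceSubgroup.Gamma0 N,
          ‖∑ i, c i * ((B.b i) ∣[B.d i] (Quotient.out x)⁻¹) τ‖ := by
  classical
  have hN : N ≠ 0 := NeZero.ne N
  obtain ⟨K0, hK0, hanti⟩ := LinearMap.exists_antilipschitzWith (leadLin B) (leadLin_ker B heven)
  have hK0' : (0 : ℝ) < K0 := by exact_mod_cast hK0
  have hanti' : ∀ c : Fin B.m → ℂ, ‖c‖ ≤ K0 * ‖leadLin B c‖ := by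
    intro c
    have h1 := hanti.le_mul_dist c 0
    simpa [dist_zero_right] using h1
  set m : ℝ := (B.m : ℝ) with hm
  have hm0 : 0 ≤ m := Nat.cast_nonneg _
  set ε : ℝ := 1 / (2 * K0 * (m + 1)) with hε
  have hε0 : 0 < ε := by positivity
  -- eventually all entries are within `ε` of their limits
  have hev : ∀ᶠ τ in atImInfty, ∀ (p : Fin N × Q N) (i : Fin B.m),
      ‖fourier N p.1 (cjQ (B.d i) (B.b i) p.2) τ - lead B p.1 p.2 i‖ ≤ ε := by
    rw [Filter.eventually_all]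
    intro p
    rw [Filter.eventually_all]
    intro i
    have h1 := tendsto_fourier_cjQ B p.1.2 p.2 i
    have h2 := h1.eventually (Metric.closedBall_mem_nhds _ hε0)
    filter_upwards [h2] with τ hτ
    rw [← dist_eq_norm]
    exact Metric.mem_closedBall.mp hτ
  obtain ⟨A, hA⟩ := (UpperHalfPlane.atImInfty_mem _).mp hev
  refine ⟨A, 2 * K0 * m + 1, by positivity, fun τ hτ c => ?_⟩
  have hent : ∀ (p : Fin N × Q N) (i : Fin B.m),
      ‖fourier N p.1 (cjQ (B.d i) (B.b i) p.2) τ - lead B p.1 p.2 i‖ ≤ ε := hA τ hτ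
  set E : ℝ := Real.exp (2 * π * τ.im * (1 - 1 / N)) with hE
  have hE0 : 0 < E := Real.exp_pos _
  set S : ℝ := ∑ y : Q N, ‖∑ i, c i * cjQ (B.d i) (B.b i) y τ‖ with hS
  have hS0 : 0 ≤ S := Finset.sum_nonneg fun _ _ => norm_nonneg _
  show (∑ i, ‖c i‖) ≤ (2 * K0 * m + 1) * E * S
  -- bound `‖leadLin B c‖`
  have hL : ‖leadLin B c‖ ≤ E * S + m * ε * ‖c‖ := by
    rw [pi_norm_le_iff_of_nonneg (by positivity)]
    intro p
    have h1 : leadLin B c p = (∑ i, c i * fourier N p.1 (cjQ (B.d i) (B.b i) p.2) τ) -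
        ∑ i, c i * (fourier N p.1 (cjQ (B.d i) (B.b i) p.2) τ - lead B p.1 p.2 i) := by
      rw [leadLin_apply, ← Finset.sum_sub_distrib]
      exact Finset.sum_congr rfl fun i _ => by ring
    rw [h1]
    refine (norm_sub_le _ _).trans (add_le_add (norm_sum_fourier_le B c p.1 p.2 τ) ?_)
    refine (norm_sum_le _ _).trans ?_
    have h2 : ∀ i ∈ (Finset.univ : Finset (Fin B.m)),
        ‖c i * (fourier N p.1 (cjQ (B.d i) (B.b i) p.2) τ - lead B p.1 p.2 i)‖ ≤ ε * ‖c‖ := by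
      intro i _
      rw [norm_mul, mul_comm]
      exact mul_le_mul (hent p i) (norm_le_pi_norm c i) (norm_nonneg _) hε0.le
    refine (Finset.sum_le_sum h2).trans ?_
    rw [Finset.sum_const, Finset.card_univ, Fintype.card_fin, nsmul_eq_mul, hm]
    exact le_of_eq (by ring)
  have hKε : K0 * (m * ε) ≤ 1 / 2 := by
    rw [hε]
    have hm1 : 0 < m + 1 := by positivity
    rw [show (K0 : ℝ) * (m * (1 / (2 * K0 * (m + 1)))) = m / (m + 1) / 2 by
      field_simp]
    rw [div_le_div_iff_of_pos_right (by norm_num : (0 : ℝ) < 2), div_le_one hm1]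
    linarith
  have hc : ‖c‖ ≤ 2 * K0 * (E * S) := by
    have h1 := hanti' c
    have h2 : (K0 : ℝ) * ‖leadLin B c‖ ≤ K0 * (E * S + m * ε * ‖c‖) :=
      mul_le_mul_of_nonneg_left hL hK0'.le
    have h3 : (K0 : ℝ) * (E * S + m * ε * ‖c‖) = K0 * (E * S) + K0 * (m * ε) * ‖c‖ := by ring
    have h4 : (K0 : ℝ) * (m * ε) * ‖c‖ ≤ 1 / 2 * ‖c‖ :=
      mul_le_mul_of_nonneg_right hKε (norm_nonneg _)
    linarith
  have hsum : (∑ i, ‖c i‖) ≤ m * ‖c‖ := by
    refine (Finset.sum_le_sum fun i _ => norm_le_pi_norm c i).trans ?_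
    rw [Finset.sum_const, Finset.card_univ, Fintype.card_fin, nsmul_eq_mul]
  have hES : 0 ≤ E * S := by positivity
  calc (∑ i, ‖c i‖) ≤ m * ‖c‖ := hsum
    _ ≤ m * (2 * K0 * (E * S)) := mul_le_mul_of_nonneg_left hc hm0
    _ = 2 * K0 * m * (E * S) := by ring
    _ ≤ (2 * K0 * m + 1) * (E * S) := by nlinarith
    _ = (2 * K0 * m + 1) * E * S := by ring

end growth

end Fermat.Agent.S20FM_helper57
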